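import Mathlib.AlgebraicGeometry.Geometrically.Connected
import Mathlib.AlgebraicGeometry.Morphisms.Proper

/-!
# Properness and connectedness from a surjection
-/

set_option autoImplicit false
set_option linter.style.haveILetI false

noncomputable section

universe u

open CategoryTheory CategoryTheory.Limits AlgebraicGeometry

namespace Fermat.Agent.RelPic

variable {S Y P : Scheme.{u}} (f : Y ⟶ P) (p : P ⟶ S)

/-- A separated locally of finite type image of a proper scheme is proper. -/
theorem isProper_of_surjective [Surjective f] [IsProper (f ≫ p)] [IsSeparated p]
    [LocallyOfFiniteType p] : IsProper p := by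
  haveI : UniversallyClosed p := UniversallyClosed.of_comp_surjective f p
  exact { }

/-- The image of a geometrically connected scheme is geometrically connected. -/
theorem geometricallyConnected_of_surjective [Surjective f] [GeometricallyConnected (f ≫ p)] :
    GeometricallyConnected p := by
  refine ⟨geometrically_iff_of_isClosedUnderIsomorphisms.mpr fun K _ x => ?_⟩
  haveI : ConnectedSpace ↥(pullback (f ≫ p) x) :=
    GeometricallyConnected.geometrically_connectedSpace _ _ _ (.of_hasPullback (f ≫ p) x)
  let g : pullback (f ≫ p) x ⟶ pullback p x :=
    pullback.map (f ≫ p) x p x f (𝟙 _) (𝟙 _) (by simp) (by simp)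
  haveI : Surjective g := by
    have e : g = (pullbackRightPullbackFstIso p x f).inv ≫ pullback.snd f (pullback.fst p x) := by
      apply pullback.hom_ext
      · rw [Category.assoc, pullbackRightPullbackFstIso_inv_snd_fst]
        exact pullback.lift_fst _ _ _
      · rw [Category.assoc, pullbackRightPullbackFstIso_inv_snd_snd]
        exact (pullback.lift_snd _ _ _).trans (Category.comp_id _)
    rw [e]
    infer_instance
  exact g.surjective.connectedSpace g.continuous

end Fermat.Agent.RelPic

end
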