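import Fermat.Agent.RelPic.Functor.Condition

/-!
# The representing scheme is separated
-/

set_option autoImplicit false
set_option linter.style.haveILetI false
set_option synthInstance.maxHeartbeats 400000
set_option maxHeartbeats 1000000

noncomputable section

universe u

open CategoryTheory CategoryTheory.Limits AlgebraicGeometry AlgebraicGeometry.RelPicard NeronModelInfra

namespace Fermat.Agent.RelPic

variable {k : Type u} [Field k]

/-- Over a valuation ring rigid degree zero triples are determined by their generic fibre. -/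
def Model.HasValuativeUniqueness (C : Model k) (e : C.Pt) : Prop :=
  ∀ (V K : Type u) [CommRing V] [IsDomain V] [ValuationRing V] [Algebra k V] [Field K]
    [Algebra k K] [Algebra V K] [IsFractionRing V K] (φ : V →ₐ[k] K),
    φ.toRingHom = algebraMap V K →
    ∀ (T T' : Triple C V) (S S' : Triple C K), T.IsRigid e → T'.IsRigid e →
    T.IsDegZero → T'.IsDegZero → Nonempty (Triple.BC φ T S) → Nonempty (Triple.BC φ T' S') →
    Nonempty (S.Equiv S') → Nonempty (T.Equiv T')

variable {C : Scheme.{u}} {c : C ⟶ Spec (CommRingCat.of k)}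
  {ε : SchemeHomOver (𝟙 (Spec (CommRingCat.of k))) c} {G : GeomModel c ε}
  {P : Scheme.{u}} {p : P ⟶ Spec (CommRingCat.of k)}

/-- The triple of a bundle of fibrewise degree zero has degree zero. -/
theorem isDegZero_of_tripleOf (hD : DictProps G) {R : Type u} [CommRing R] [Algebra k R]
    {M : RigidifiedLineBundle c ε p} (hM : FibDegZero G M) (g : SchemeHomOver (str k R) p)
    {X : Triple G.model R} (hX : TripleOf G R (M.pullbackAlong g).L X) : X.IsDegZero := by
  intro K _ _ φ X' hX'
  exact hM K (postComp g (specOver φ)) X'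
    (((hD.bc_iff R K φ _ X X' (M.pullbackAlong g).isInvertible hX).mpr hX').of_iso
      (pullbackAlong_comp M g (specOver φ)).some)

/-- Two morphisms from a valuation ring to a moduli space of rigidified degree zero bundles agree
if they agree at the generic point. -/
theorem valuativeUniqueness (hD : DictProps G) (hval : G.model.HasValuativeUniqueness G.e)
    (M : RigidifiedLineBundle c ε p) (hM : FibDegZero G M)
    (hM' : ∀ {T : Scheme.{u}} (t : T ⟶ Spec (CommRingCat.of k)) (g g' : SchemeHomOver t p),
      Nonempty ((M.pullbackAlong g).L ≅ (M.pullbackAlong g').L) → g = g') :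
    ValuativeCriterion.Uniqueness p := by
  intro S
  constructor
  intro l l'
  letI : Algebra k S.R := algOf S.i₂
  letI : Algebra k S.K := ((algebraMap S.R S.K).comp (algebraMap k S.R)).toAlgebra
  haveI : IsScalarTower k S.R S.K := IsScalarTower.of_algebraMap_eq' rfl
  set φ : S.R →ₐ[k] S.K := IsScalarTower.toAlgHom k S.R S.K
  let g : SchemeHomOver (str k S.R) p := ⟨l.l, l.fac_right.trans (str_algOf S.i₂).symm⟩
  let g' : SchemeHomOver (str k S.R) p := ⟨l'.l, l'.fac_right.trans (str_algOf S.i₂).symm⟩
  have hgen : postComp g (specOver φ) = postComp g' (specOver φ) :=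
    Subtype.ext (l.fac_left.trans l'.fac_left.symm)
  obtain ⟨X, hX, hXr⟩ := hD.exists_tripleOf S.R (M.pullbackAlong g)
  obtain ⟨X', hX', hXr'⟩ := hD.exists_tripleOf S.R (M.pullbackAlong g')
  obtain ⟨Y, hY, -⟩ := hD.exists_tripleOf S.K (M.pullbackAlong (postComp g (specOver φ)))
  obtain ⟨Y', hY', -⟩ := hD.exists_tripleOf S.K (M.pullbackAlong (postComp g' (specOver φ)))
  have hYY : Nonempty (Y.Equiv Y') :=
    (hD.iso_iff S.K _ _ Y Y' (RigidifiedLineBundle.isInvertible _)
      (RigidifiedLineBundle.isInvertible _) hY hY').mp ⟨eqToIso (by rw [hgen])⟩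
  have hE := hval S.R S.K φ rfl X X' Y Y' hXr hXr' (isDegZero_of_tripleOf hD hM g hX)
    (isDegZero_of_tripleOf hD hM g' hX') (bc_of_tripleOf hD φ hX hY) (bc_of_tripleOf hD φ hX' hY')
    hYY
  have h := hM' _ g g' ((hD.iso_iff S.R _ _ X X' (RigidifiedLineBundle.isInvertible _)
    (RigidifiedLineBundle.isInvertible _) hX hX').mpr hE)
  exact CommSq.LiftStruct.ext (congrArg Subtype.val h)

/-- A locally of finite type moduli space of rigidified degree zero bundles is separated. -/
theorem isSeparated_of_moduli (hD : DictProps G) (hval : G.model.HasValuativeUniqueness G.e)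
    [LocallyOfFiniteType p] (M : RigidifiedLineBundle c ε p) (hM : FibDegZero G M)
    (hM' : ∀ {T : Scheme.{u}} (t : T ⟶ Spec (CommRingCat.of k)) (g g' : SchemeHomOver t p),
      Nonempty ((M.pullbackAlong g).L ≅ (M.pullbackAlong g').L) → g = g') :
    IsSeparated p := by
  haveI : IsLocallyNoetherian P := LocallyOfFiniteType.isLocallyNoetherian p
  haveI : QuasiSeparated p := inferInstance
  exact IsSeparated.of_valuativeCriterion p (valuativeUniqueness hD hval M hM hM')

end Fermat.Agent.RelPic

end
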