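import Fermat.Agent.RelPic.GeomDefs

/-!
# A scheme covered by spectra of smooth algebras is smooth
-/

set_option autoImplicit false
set_option linter.style.haveILetI false

noncomputable section

universe u

open CategoryTheory AlgebraicGeometry

namespace Fermat.Agent.RelPic

variable {k : Type u} [Field k]

theorem smooth_str (S : Type u) [CommRing S] [Algebra k S] [Algebra.Smooth k S] :
    Smooth (str k S) := by
  rw [HasRingHomProperty.Spec_iff (P := @Smooth)]
  exact RingHom.smooth_algebraMap.mpr inferInstance

/-- A scheme over `k` covered by spectra of smooth algebras is smooth. -/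
theorem smooth_of_charts {P : Scheme.{u}} {p : P ⟶ Spec (CommRingCat.of k)} {ι : Type*}
    (S : ι → Type u) [∀ i, CommRing (S i)] [∀ i, Algebra k (S i)]
    (hS : ∀ i, Algebra.Smooth k (S i)) (j : ∀ i, Spec (CommRingCat.of (S i)) ⟶ P)
    [hj : ∀ i, IsOpenImmersion (j i)] (hjp : ∀ i, j i ≫ p = str k (S i))
    (hcov : ∀ x : P, ∃ i, x ∈ (j i).opensRange) : Smooth p := by
  have hU : (⨆ i, (j i).opensRange) = ⊤ := eq_top_iff.mpr fun x _ =>
    TopologicalSpace.Opens.mem_iSup.mpr (hcov x)
  haveI : IsZariskiLocalAtSource @Smooth.{u} := by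
    apply HasRingHomProperty.instIsZariskiLocalAtSource
  refine IsZariskiLocalAtSource.of_iSup_eq_top (P := @Smooth.{u}) (fun i => (j i).opensRange) hU
    fun i => ?_
  haveI := hS i
  haveI := smooth_str (k := k) (S i)
  have e : (j i).opensRange.ι ≫ p = (j i).isoOpensRange.inv ≫ str k (S i) := by
    rw [← hjp i, Scheme.Hom.isoOpensRange_inv_comp_assoc]
  rw [e]
  infer_instance

end Fermat.Agent.RelPic

end
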