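import Fermat.Agent.RelPic.Props.ChartSmooth
import Fermat.Agent.RelPic.Props.Proper
import Fermat.Agent.RelPic.Props.Separated
import Fermat.Agent.RelPic.Props.Smooth
import Fermat.Prelude.Def_AlgebraicGeometry_RepresentsRelSubPic
import Mathlib.AlgebraicGeometry.Geometrically.Integral

/-!
# Properties of the scheme representing rigidified bundles of degree zero
-/

set_option autoImplicit false
set_option linter.style.haveILetI false

noncomputable section

universe u

open CategoryTheory CategoryTheory.Limits AlgebraicGeometry AlgebraicGeometry.RelPicard NeronModelInfra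
  GoodReductionJacobian

namespace Fermat.Agent.RelPic

variable {k : Type u} [Field k] {C : Scheme.{u}} {c : C ⟶ Spec (CommRingCat.of k)}
  {ε : SchemeHomOver (𝟙 (Spec (CommRingCat.of k))) c} {G : GeomModel c ε}
  {P : SubPicCondition c ε} {D : RelativePic0Designation k c}

theorem eq_of_pullbackAlong_iso (h : RepresentsRelSubPic c ε P D) {T : Scheme.{u}}
    (t : T ⟶ Spec (CommRingCat.of k)) (g g' : SchemeHomOver t D.toBase)
    (hiso : Nonempty ((h.poincare.pullbackAlong g).L ≅ (h.poincare.pullbackAlong g').L)) :
    g = g' :=
  (h.univ t (h.poincare.pullbackAlong g') (P.pullback_mem _ _ g' _ h.poincare_mem)).unique hiso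
    ⟨Iso.refl _⟩

/-- A scheme covered by chart rings is smooth. -/
theorem smooth_of_representable (hbc : G.model.HasBaseChange)
    (hopen : ∀ i : Idx G.model, i.IsOpenCondition G.e) (hlift : G.model.HasLifting G.e)
    (hcover : ∀ x : D.P, ∃ (i : Idx G.model) (d : i.ChartData G.e)
      (j : Spec (CommRingCat.of d.S) ⟶ D.P), IsOpenImmersion j ∧ x ∈ Set.range j ∧
        j ≫ D.toBase = str k d.S) : Smooth D.toBase := by
  choose i d j hj hx hjp using hcover
  haveI := hj
  exact smooth_of_charts (fun x => (d x).S) (fun x => (d x).smooth hbc (hopen _) hlift) j hjp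
    fun x => ⟨x, hx x⟩

/-- The representing scheme is separated. -/
theorem isSeparated_of_representable (hD : DictProps G)
    (hval : G.model.HasValuativeUniqueness G.e) [Smooth D.toBase]
    (hP : ∀ {T : Scheme.{u}} (t : T ⟶ Spec (CommRingCat.of k)) (M : RigidifiedLineBundle c ε t),
      P.P t M → FibDegZero G M)
    (h : RepresentsRelSubPic c ε P D) : IsSeparated D.toBase :=
  isSeparated_of_moduli hD hval h.poincare (hP _ _ h.poincare_mem) (eq_of_pullbackAlong_iso h)

/-- The iterated product of a scheme over `k` with itself. -/
def selfProd (c : C ⟶ Spec (CommRingCat.of k)) :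
    ℕ → Σ Y : Scheme.{u}, Y ⟶ Spec (CommRingCat.of k)
  | 0 => ⟨Spec (CommRingCat.of k), 𝟙 _⟩
  | n + 1 => ⟨pullback (selfProd c n).2 c, pullback.fst (selfProd c n).2 c ≫ (selfProd c n).2⟩

theorem isProper_selfProd [IsProper c] : ∀ n, IsProper (selfProd c n).2
  | 0 => inferInstanceAs (IsProper (𝟙 _))
  | n + 1 => by
    haveI := isProper_selfProd n
    show IsProper (pullback.fst (selfProd c n).2 c ≫ (selfProd c n).2)
    infer_instance

theorem geometricallyConnected_selfProd [GeometricallyConnected c] :
    ∀ n, GeometricallyConnected (selfProd c n).2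
  | 0 => ⟨geometrically_iff_of_isClosedUnderIsomorphisms.mpr fun K _ x => by
      show ConnectedSpace ↥(pullback (𝟙 _) x)
      exact (asIso (pullback.snd (𝟙 (Spec (CommRingCat.of k))) x)).hom.homeomorph.connectedSpace_iff.mpr
        inferInstance⟩
  | n + 1 => by
    haveI := geometricallyConnected_selfProd n
    haveI : MorphismProperty.IsStableUnderBaseChange @GeometricallyConnected.{u} :=
      GeometricallyConnected.eq_geometrically ▸ inferInstance
    haveI : GeometricallyConnected (pullback.fst (selfProd c n).2 c) :=
      MorphismProperty.of_isPullback (IsPullback.of_hasPullback (selfProd c n).2 c).flip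
        ‹GeometricallyConnected c›
    show GeometricallyConnected (pullback.fst (selfProd c n).2 c ≫ (selfProd c n).2)
    exact GeometricallyConnected.comp _ _

/-- Geometrically integral implies geometrically connected. -/
theorem geometricallyConnected_of_geometricallyIntegral {X S : Scheme.{u}} (f : X ⟶ S)
    [GeometricallyIntegral f] : GeometricallyConnected f := by
  refine ⟨fun K _ y Y g h hpb => ?_⟩
  haveI : IsIntegral Y := GeometricallyIntegral.geometrically_isIntegral _ _ _ hpb
  infer_instance

/-- A scheme receiving a surjection from a power of the curve is proper and geometrically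
connected. -/
theorem isProper_and_geometricallyConnected [IsProper c] [GeometricallyConnected c]
    [IsSeparated D.toBase] [Smooth D.toBase] {n : ℕ} (f : (selfProd c n).1 ⟶ D.P) [Surjective f]
    (hf : f ≫ D.toBase = (selfProd c n).2) :
    IsProper D.toBase ∧ GeometricallyConnected D.toBase := by
  haveI : IsProper (f ≫ D.toBase) := hf ▸ isProper_selfProd n
  haveI : GeometricallyConnected (f ≫ D.toBase) := hf ▸ geometricallyConnected_selfProd n
  exact ⟨isProper_of_surjective f D.toBase, geometricallyConnected_of_surjective f D.toBase⟩

end Fermat.Agent.RelPic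

end
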