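import Fermat.Agent.RelPic.Complex.Equiv
import Fermat.Agent.RelPic.Contracts

/-!
# The chart rings are formally smooth
-/

set_option autoImplicit false
set_option synthInstance.maxHeartbeats 400000

noncomputable section

universe u

namespace Fermat.Agent.RelPic

variable {k : Type u} [Field k] {C : Model k}

/-- Rigid triples lift along square-zero thickenings. -/
def Model.HasLifting (C : Model k) (e : C.Pt) : Prop :=
  ∀ (R R' : Type u) [CommRing R] [Algebra k R] [CommRing R'] [Algebra k R'] (φ : R →ₐ[k] R'),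
    Function.Surjective φ → RingHom.ker φ ^ 2 = ⊥ → ∀ T : Triple C R', T.IsRigid e →
    ∃ T₀ : Triple C R, T₀.IsRigid e ∧ Nonempty (Triple.BC φ T₀ T)

/-- A chart ring is formally smooth over `k`. -/
theorem Idx.ChartData.formallySmooth {i : Idx C} {e : C.Pt} (D : i.ChartData e)
    (hbc : C.HasBaseChange) (hop : i.IsOpenCondition e) (hlift : C.HasLifting e) :
    Algebra.FormallySmooth k D.S := by
  rw [Algebra.FormallySmooth.iff_comp_surjective]
  intro B _ _ I hI g
  set π : B →ₐ[k] B ⧸ I := Ideal.Quotient.mkₐ k I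
  obtain ⟨T, ⟨F⟩⟩ := hbc _ _ g D.U
  have hrig : T.IsRigid e := F.isRigid D.rigid
  have hin : i.InChart T e := hop.bc _ _ g D.U T ⟨F⟩ D.inChart
  obtain ⟨T₀, hrig₀, ⟨F₀⟩⟩ := hlift B (B ⧸ I) π Ideal.Quotient.mk_surjective
    (by rw [show RingHom.ker π = I from Ideal.mk_ker]; exact hI) T hrig
  have hloc : i.locus T₀ e = Set.univ := Set.eq_univ_of_forall fun q T' ⟨G⟩ => by
    have hle : I ≤ q.asIdeal := q.isPrime.le_of_pow_le (n := 2) (hI ▸ bot_le)
    set κ := IsScalarTower.toAlgHom k B q.asIdeal.ResidueField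
    let ψ : (B ⧸ I) →ₐ[k] q.asIdeal.ResidueField := Ideal.Quotient.liftₐ I κ fun b hb => by
      show algebraMap B q.asIdeal.ResidueField b = 0
      rw [Ideal.algebraMap_residueField_eq_zero]
      exact hle hb
    have hψ : ψ.comp π = κ := AlgHom.ext fun b => rfl
    obtain ⟨T'', ⟨F'⟩⟩ := hbc _ _ ψ T
    obtain ⟨E⟩ := (F₀.comp F').nonempty_equiv (hψ.symm ▸ G)
    exact hop.bc _ _ (AlgHom.id k _) T'' T' ⟨Triple.BC.ofEquiv E⟩ (hop.bc _ _ ψ T T'' ⟨F'⟩ hin)
  obtain ⟨φ, ⟨Fφ⟩, -⟩ := D.univ B T₀ hrig₀ (hop.of_locus B T₀ hrig₀ hloc)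
  obtain ⟨χ, -, huniq⟩ := D.univ (B ⧸ I) T hrig hin
  exact ⟨φ, (huniq _ ⟨Fφ.comp F₀⟩).trans (huniq g ⟨F⟩).symm⟩

/-- A chart ring is smooth over `k`. -/
theorem Idx.ChartData.smooth {i : Idx C} {e : C.Pt} (D : i.ChartData e)
    (hbc : C.HasBaseChange) (hop : i.IsOpenCondition e) (hlift : C.HasLifting e) :
    Algebra.Smooth k D.S where
  formallySmooth := D.formallySmooth hbc hop hlift
  finitePresentation := D.finitePresentation

end Fermat.Agent.RelPic

end
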