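import Fermat.Agent.RelPic.Props.ChartSmooth
import Fermat.Agent.RelPic.Chart.Fibre
import Fermat.Agent.RelPic.Chart.Fibrewise
import Mathlib.LinearAlgebra.Matrix.Adjugate
import Mathlib.LinearAlgebra.TensorProduct.RightExactness
import Mathlib.Tactic.NoncommRing

/-!
# Rigid triples lift along square-zero thickenings

An idempotent matrix lifts, so the overlap module lifts; each lattice lifts inside it with its
frame, and stays invertible.
-/

set_option autoImplicit false
set_option synthInstance.maxHeartbeats 400000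

noncomputable section

universe u

open scoped TensorProduct

namespace Fermat.Agent.RelPic

section SquareZero

variable {S S' : Type*} [CommRing S] [CommRing S'] {f : S →+* S'}

theorem matrix_mul_eq_zero_of_map (hsq : ∀ a b, f a = 0 → f b = 0 → a * b = 0) {n : ℕ}
    {D D' : Matrix (Fin n) (Fin n) S} (h : D.map f = 0) (h' : D'.map f = 0) : D * D' = 0 := by
  ext i j
  rw [Matrix.mul_apply]
  exact Finset.sum_eq_zero fun l _ =>
    hsq _ _ (congrFun (congrFun h i) l) (congrFun (congrFun h' l) j)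

/-- Idempotent matrices lift along square-zero surjections. -/
theorem exists_idempotent_lift (hf : Function.Surjective f)
    (hsq : ∀ a b, f a = 0 → f b = 0 → a * b = 0) {n : ℕ} {E' : Matrix (Fin n) (Fin n) S'}
    (hE' : E' * E' = E') : ∃ E : Matrix (Fin n) (Fin n) S, E * E = E ∧ E.map f = E' := by
  choose g hg using hf
  let x : Matrix (Fin n) (Fin n) S := E'.map g
  have hx : f.mapMatrix x = E' := by ext i j; exact hg _
  have hD : f.mapMatrix (x * x - x) = 0 := by rw [map_sub, map_mul, hx, hE', sub_self]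
  refine ⟨3 * (x * x) - 2 * (x * x * x), sub_eq_zero.mp ?_, ?_⟩
  · have e : (3 * (x * x) - 2 * (x * x * x)) * (3 * (x * x) - 2 * (x * x * x)) -
        (3 * (x * x) - 2 * (x * x * x)) =
        ((x * x - x) * (x * x - x)) * (4 * (x * x - x) - 3) := by
      noncomm_ring
    rw [e, matrix_mul_eq_zero_of_map hsq hD hD, zero_mul]
  · show f.mapMatrix _ = E'
    simp only [map_sub, map_mul, map_ofNat, hx, hE']
    noncomm_ring

/-- A module framed by a lift of a frame of an invertible module is invertible. -/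
theorem invertible_of_frame_lift {P P' : Type*} [AddCommGroup P] [Module S P] [AddCommGroup P']
    [Module S' P'] [Module.Invertible S' P'] (hf : Function.Surjective f)
    (hsq : ∀ a b, f a = 0 → f b = 0 → a * b = 0) {n : ℕ} (g : Fin n → P)
    (σ : P →ₗ[S] Fin n → S) (hsum : ∀ v, ∑ i, σ v i • g i = v) (g' : Fin n → P')
    (σ' : P' →ₗ[S'] Fin n → S') (hsum' : ∀ v, ∑ i, σ' v i • g' i = v)
    (hcomp : ∀ i j, f (σ (g i) j) = σ' (g' i) j) : Module.Invertible S P := by
  classical
  refine invertible_of_local_generators fun Q hQ => ?_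
  have hker : RingHom.ker f ≤ Q := fun a ha =>
    (hQ.isPrime.mem_or_mem ((hsq a a ha ha).symm ▸ Q.zero_mem)).elim id id
  obtain ⟨i, j, hij⟩ : ∃ i j, σ (g i) j ∉ Q := by
    by_contra hne
    push Not at hne
    have hmem : ∀ (y : P') l, σ' y l ∈ Q.map f := fun y l => by
      rw [← hsum' y, map_sum, Finset.sum_apply]
      refine Ideal.sum_mem _ fun m _ => ?_
      rw [map_smul, Pi.smul_apply, smul_eq_mul, ← hcomp]
      exact Ideal.mul_mem_left _ _ (Ideal.mem_map_of_mem f (hne m l))
    have hcl : ∀ t, contractLeft S' P' t ∈ Q.map f := fun t => by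
      induction t using TensorProduct.induction_on with
      | zero => rw [map_zero]; exact zero_mem _
      | tmul φ y =>
        rw [contractLeft_apply, ← hsum' y, map_sum]
        refine Ideal.sum_mem _ fun l _ => ?_
        rw [map_smul, smul_eq_mul]
        exact Ideal.mul_mem_right _ _ (hmem y l)
      | add x y hx hy => rw [map_add]; exact add_mem hx hy
    obtain ⟨t, ht⟩ := (Module.Invertible.bijective (R := S') (M := P')).2 1
    have h1 : (1 : S) ∈ (Q.map f).comap f := by
      rw [Ideal.mem_comap, map_one, ← ht]; exact hcl t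
    rw [Ideal.comap_map_of_surjective f hf, show Ideal.comap f ⊥ = RingHom.ker f from rfl,
      sup_eq_left.mpr hker] at h1
    exact hQ.ne_top ((Ideal.eq_top_iff_one Q).mpr h1)
  set c := σ (g i) j
  let b : Fin n → S := fun m => σ (g m) j
  let N : Matrix (Fin n) (Fin n) S := .of fun m l => σ (c • g m - b m • g i) l
  have hN : ∀ m l, f (N m l) = 0 := fun m l => by
    have e : σ' (g' i) j • g' m = σ' (g' m) j • g' i :=
      dual_apply_smul_comm ((LinearMap.proj j).comp σ') (g' i) (g' m)
    have h := congrArg (fun y => σ' y l) e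
    simp only [map_smul, Pi.smul_apply, smul_eq_mul] at h
    simp only [N, Matrix.of_apply, map_sub, map_smul, Pi.sub_apply, Pi.smul_apply, smul_eq_mul,
      map_mul, b, c, hcomp, h, sub_self]
  let Mx : Matrix (Fin n) (Fin n) S := c • 1 - N
  have hMx : ∀ m, ∑ l, Mx m l • g l = b m • g i := fun m => by
    have h1 : ∑ l, N m l • g l = c • g m - b m • g i := hsum _
    simp only [Mx, Matrix.sub_apply, Matrix.smul_apply, sub_smul, Finset.sum_sub_distrib, h1,
      Matrix.one_apply, smul_eq_mul, mul_ite, mul_one, mul_zero, ite_smul, zero_smul,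
      Finset.sum_ite_eq, Finset.mem_univ, if_true, sub_sub_cancel]
  have hgen : ∀ m, Mx.det • g m = (∑ l, Mx.adjugate m l * b l) • g i := fun m => by
    have h : ∑ l, Mx.adjugate m l • ∑ o, Mx l o • g o = Mx.det • g m := by
      simp only [Finset.smul_sum, smul_smul]
      rw [Finset.sum_comm]
      simp only [← Finset.sum_smul, ← Matrix.mul_apply, Matrix.adjugate_mul, Matrix.smul_apply,
        Matrix.one_apply, smul_eq_mul, mul_ite, mul_one, mul_zero, ite_smul, zero_smul,
        Finset.sum_ite_eq, Finset.mem_univ, if_true]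
    rw [← h, Finset.sum_smul]
    exact Finset.sum_congr rfl fun l _ => by rw [hMx, smul_smul]
  have hdet : Mx.det ∉ Q := fun h => by
    have h1 : (Ideal.Quotient.mk Q).mapMatrix Mx = Ideal.Quotient.mk Q c • 1 := by
      ext m l
      simp only [RingHom.mapMatrix_apply, Matrix.map_apply, Mx, Matrix.sub_apply, map_sub,
        Matrix.smul_apply, smul_eq_mul, map_mul, Matrix.one_apply,
        Ideal.Quotient.eq_zero_iff_mem.mpr (hker (hN m l)), sub_zero]
      split <;> simp
    have h2 : Ideal.Quotient.mk Q (c ^ n) = 0 := by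
      rw [map_pow, ← Ideal.Quotient.eq_zero_iff_mem.mpr h, RingHom.map_det, h1]
      simp
    exact hij (hQ.isPrime.mem_of_pow_mem _ (Ideal.Quotient.eq_zero_iff_mem.mp h2))
  refine ⟨g i, c * Mx.det, fun h => (hQ.isPrime.mem_or_mem h).elim hij hdet,
    fun y => ⟨∑ m, c * σ y m * ∑ l, Mx.adjugate m l * b l, ?_⟩, fun s hs => ?_⟩
  · conv_lhs => rw [← hsum y, Finset.smul_sum]
    rw [Finset.sum_smul]
    refine Finset.sum_congr rfl fun m _ => ?_
    rw [smul_smul, mul_right_comm, mul_smul, hgen, smul_smul]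
  · have h0 := congrArg (fun y => σ y j) hs
    simp only [map_smul, Pi.smul_apply, smul_eq_mul, map_zero, Pi.zero_apply] at h0
    show c * Mx.det * s = 0
    rw [mul_right_comm, mul_comm c s, show s * c = 0 from h0, zero_mul]

end SquareZero

section LatticeLift

variable {R R' A A' M₀ M : Type*} [CommRing R] [CommRing R'] [CommRing A] [CommRing A']
  [Algebra R A] [Algebra R' A'] [AddCommGroup M₀] [Module A M₀] [AddCommGroup M] [Module A' M]

/-- A framed invertible lattice lifts to a thickening of its module. -/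
theorem exists_lattice_lift {f : A →+* A'} (hsq : ∀ a b, f a = 0 → f b = 0 → a * b = 0)
    {B : Subalgebra R A} {B' : Subalgebra R' A'} (hB : ∀ b ∈ B, f b ∈ B')
    (hB' : ∀ b' ∈ B', ∃ b ∈ B, f b = b') (hf : Function.Surjective f)
    {X : A} (hX : X ∈ B) (hexh : ∀ a : A, ∃ n : ℕ, X ^ n * a ∈ B)
    {n : ℕ} (g₀ : Fin n → M₀) (S₀ : M₀ →ₗ[A] Fin n → A) (hsum₀ : ∀ v, ∑ i, S₀ v i • g₀ i = v)
    (π : M₀ →+ M) (hπ : ∀ a v, π (a • v) = f a • π v) (hπs : Function.Surjective π)
    (hker : ∀ v, π v = 0 → v ∈ RingHom.ker f • (⊤ : Submodule A M₀))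
    {p' : Submodule B' M} [Module.Invertible B' p'] {m : ℕ} (h' : Fin m → M)
    (U' : M →ₗ[A'] Fin m → A') (hh' : ∀ l, h' l ∈ p') (hsum' : ∀ v, ∑ l, U' v l • h' l = v)
    (hU' : ∀ v ∈ p', ∀ l, U' v l ∈ B') :
    ∃ q : Submodule B M₀, Module.Invertible B q ∧ (∀ v ∈ q, π v ∈ p') ∧
      (∀ v ∈ p', ∃ w ∈ q, π w = v) ∧ ∀ v, ∃ N : ℕ, X ^ N • v ∈ q := by
  classical
  let fB : B →+* B' := (f.comp B.val.toRingHom).codRestrict B' fun b => hB b b.2
  have hfB : Function.Surjective fB := fun b' => by
    obtain ⟨b, hb, e⟩ := hB' b' b'.2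
    exact ⟨⟨b, hb⟩, Subtype.ext e⟩
  have hsqB : ∀ a b, fB a = 0 → fB b = 0 → a * b = 0 := fun a b ha hb =>
    Subtype.ext (hsq _ _ (congrArg Subtype.val ha) (congrArg Subtype.val hb))
  let F' : Matrix (Fin m) (Fin m) B' := .of fun l j => ⟨U' (h' l) j, hU' _ (hh' l) j⟩
  have hUF : ∀ v j, ∑ l, U' v l * U' (h' l) j = U' v j := fun v j => by
    conv_rhs => rw [← hsum' v]
    simp [Finset.sum_apply]
  have hF' : F' * F' = F' := by
    ext l j
    simp only [Matrix.mul_apply, AddSubmonoidClass.coe_finsetSum, MulMemClass.coe_mul, F', Matrix.of_apply]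
    exact hUF _ _
  obtain ⟨F, hFF, hFF'⟩ := exists_idempotent_lift hfB hsqB hF'
  have hFf : ∀ l j, f (F l j) = U' (h' l) j := fun l j =>
    congrArg Subtype.val (congrFun (congrFun hFF' l) j)
  have hF2 : ∀ l j, ∑ o, (F l o : A) * F o j = F l j := fun l j => by
    have h := congrArg Subtype.val (congrFun (congrFun hFF l) j)
    simpa [Matrix.mul_apply] using h
  choose h₀ hh₀ using fun l => hπs (h' l)
  let h : Fin m → M₀ := fun l => ∑ j, (F l j : A) • h₀ j
  have hπh : ∀ l, π (h l) = h' l := fun l => by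
    simp only [h, map_sum, hπ, hFf, hh₀]
    exact hsum' _
  have hFh : ∀ l, ∑ j, (F l j : A) • h j = h l := fun l => by
    simp only [h, Finset.smul_sum, smul_smul]
    rw [Finset.sum_comm]
    simp only [← Finset.sum_smul, hF2]
  choose u hu using fun i j => hf (U' (π (g₀ i)) j)
  let U₀ : M₀ →ₗ[A] Fin m → A := (Fintype.linearCombination A u).comp S₀
  have hU₀ : ∀ v j, f (U₀ v j) = U' (π v) j := fun v j => by
    conv_rhs => rw [← hsum₀ v]
    simp [U₀, Fintype.linearCombination_apply, Finset.sum_apply, hπ, hu]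
  let ν : M₀ →ₗ[A] M₀ := (Fintype.linearCombination A h).comp U₀ - LinearMap.id
  have hν : ∀ v, π (ν v) = 0 := fun v => by
    simp only [ν, LinearMap.sub_apply, LinearMap.comp_apply, LinearMap.id_apply,
      Fintype.linearCombination_apply, map_sub, map_sum, hπ, hU₀, hπh]
    rw [hsum', sub_self]
  have hν2 : ∀ v, ν (ν v) = 0 := by
    have hK : RingHom.ker f * RingHom.ker f = ⊥ := le_bot_iff.mp <|
      Ideal.mul_le.mpr fun a ha b hb => Ideal.mem_bot.mpr (hsq a b ha hb)
    have h1 : LinearMap.range ν ≤ RingHom.ker f • (⊤ : Submodule A M₀) := by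
      rintro _ ⟨v, rfl⟩; exact hker _ (hν v)
    intro v
    have h2 : ν (ν v) ∈ (RingHom.ker f • LinearMap.range ν) := by
      have := Submodule.mem_map_of_mem (f := ν) (hker _ (hν v))
      rwa [Submodule.map_smul'', ← LinearMap.range_eq_map] at this
    have h3 := Submodule.smul_mono le_rfl h1 h2
    rw [← Submodule.smul_assoc, smul_eq_mul, hK, Submodule.bot_smul] at h3
    exact h3
  let U : M₀ →ₗ[A] Fin m → A :=
    (Matrix.vecMulLinear (Matrix.of fun l j => (F l j : A))).comp
      (U₀.comp (LinearMap.id - ν))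
  have hUdef : ∀ v j, U v j = ∑ l, U₀ (v - ν v) l * (F l j : A) := fun _ _ => rfl
  have hsum : ∀ v, ∑ l, U v l • h l = v := fun v => by
    have h1 : ∑ l, U₀ (v - ν v) l • h l = v := by
      have e : ν (v - ν v) = ∑ l, U₀ (v - ν v) l • h l - (v - ν v) := by
        simp [ν, Fintype.linearCombination_apply]
      rw [eq_add_of_sub_eq e.symm, map_sub, hν2, sub_zero]
      abel
    conv_rhs => rw [← h1]
    simp only [hUdef, Finset.sum_smul]
    rw [Finset.sum_comm]
    simp only [mul_smul, ← Finset.smul_sum, hFh]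
  have hfU : ∀ v j, f (U v j) = U' (π v) j := fun v j => by
    simp only [hUdef, map_sum, map_mul, hU₀, hFf]
    rw [map_sub, hν, sub_zero]
    exact hUF _ _
  have hUh : ∀ l j, U (h l) j = (F l j : A) := by
    let FA : Matrix (Fin m) (Fin m) A := .of fun l j => (F l j : A)
    let P : Matrix (Fin m) (Fin m) A := .of fun l j => U (h l) j
    have e1 : FA * FA = FA := by ext l j; exact hF2 l j
    have e2 : FA * P = P := by
      ext l j
      simp only [Matrix.mul_apply, P, FA, Matrix.of_apply]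
      conv_rhs => rw [← hFh l]
      simp [Finset.sum_apply]
    have e3 : P * FA = P := by
      ext l j
      simp only [Matrix.mul_apply, P, FA, Matrix.of_apply, hUdef, Finset.sum_mul]
      rw [Finset.sum_comm]
      simp only [mul_assoc, ← Finset.mul_sum, hF2]
    have e4 : P * P = P := by
      ext l j
      simp only [Matrix.mul_apply, P, Matrix.of_apply]
      conv_rhs => rw [← hsum (h l)]
      simp [Finset.sum_apply]
    have e5 : (FA - P).map f = 0 := by
      ext l j
      simp [FA, P, hFf, hfU, hπh]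
    have e6 : (FA - P) * (FA - P) = FA - P := by
      rw [mul_sub, sub_mul, sub_mul, e1, e2, e3, e4, sub_self, sub_zero]
    rw [matrix_mul_eq_zero_of_map hsq e5 e5] at e6
    intro l j
    exact (congrFun (congrFun (sub_eq_zero.mp e6.symm) l) j).symm
  let q : Submodule B M₀ := Submodule.span B (Set.range h)
  have hhq : ∀ l, h l ∈ q := fun l => Submodule.subset_span ⟨l, rfl⟩
  have hUq : ∀ v ∈ q, ∀ j, U v j ∈ B := fun v hv j => by
    induction hv using Submodule.span_induction with
    | mem x hx => obtain ⟨l, rfl⟩ := hx; rw [hUh]; exact (F l j).2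
    | zero => simp
    | add x y _ _ hx hy => rw [map_add, Pi.add_apply]; exact add_mem hx hy
    | smul b x _ hx =>
      rw [Subalgebra.smul_def, map_smul, Pi.smul_apply, smul_eq_mul]; exact mul_mem b.2 hx
  refine ⟨q, ?_, fun v hv => ?_, fun v hv => ?_, fun v => ?_⟩
  · let σ : q →ₗ[B] Fin m → B :=
      { toFun := fun v j => ⟨U v j, hUq v v.2 j⟩
        map_add' := fun v w => funext fun j => Subtype.ext (by simp)
        map_smul' := fun b v => funext fun j => Subtype.ext (by
          show U ((b : A) • (v : M₀)) j = (b : A) * U v j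
          rw [map_smul, Pi.smul_apply, smul_eq_mul]) }
    let σ' : p' →ₗ[B'] Fin m → B' :=
      { toFun := fun v j => ⟨U' v j, hU' v v.2 j⟩
        map_add' := fun v w => funext fun j => Subtype.ext (by simp)
        map_smul' := fun b v => funext fun j => Subtype.ext (by
          show U' ((b : A') • (v : M)) j = (b : A') * U' v j
          rw [map_smul, Pi.smul_apply, smul_eq_mul]) }
    refine invertible_of_frame_lift hfB hsqB (fun l => (⟨h l, hhq l⟩ : q)) σ (fun v => ?_)
      (fun l => (⟨h' l, hh' l⟩ : p')) σ' (fun v => ?_) fun i j => ?_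
    · refine Subtype.ext ?_
      simp only [Submodule.coe_sum, Submodule.coe_smul, Subalgebra.smul_def]
      exact hsum v
    · refine Subtype.ext ?_
      simp only [Submodule.coe_sum, Submodule.coe_smul, Subalgebra.smul_def]
      exact hsum' v
    · refine Subtype.ext ?_
      show f (U (h i) j) = U' (h' i) j
      rw [hUh, hFf]
  · induction hv using Submodule.span_induction with
    | mem x hx => obtain ⟨l, rfl⟩ := hx; rw [hπh]; exact hh' l
    | zero => simp
    | add x y _ _ hx hy => rw [map_add]; exact add_mem hx hy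
    | smul b x _ hx =>
      rw [Subalgebra.smul_def, hπ]
      exact p'.smul_mem (⟨_, hB b b.2⟩ : B') hx
  · choose b hb hbe using fun l => hB' _ (hU' v hv l)
    refine ⟨∑ l, b l • h l, Submodule.sum_mem _ fun l _ => q.smul_mem (⟨_, hb l⟩ : B) (hhq l), ?_⟩
    simp only [map_sum, hπ, hbe, hπh]
    exact hsum' v
  · choose N hN using fun l => hexh (U v l)
    refine ⟨∑ l, N l, ?_⟩
    rw [← hsum v, Finset.smul_sum]
    refine Submodule.sum_mem _ fun l _ => ?_
    rw [smul_smul]
    have hle : N l ≤ ∑ l, N l := Finset.single_le_sum (fun _ _ => Nat.zero_le _) (Finset.mem_univ l)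
    have hmem : X ^ (∑ l, N l) * U v l ∈ B := by
      rw [show ∑ l, N l = (∑ l, N l) - N l + N l by omega, pow_add, mul_assoc]
      exact mul_mem (pow_mem hX _) (hN l)
    exact q.smul_mem (⟨_, hmem⟩ : B) (hhq l)

end LatticeLift

namespace Model

variable {k : Type u} [Field k] (C : Model k) {R R' : Type u} [CommRing R] [Algebra k R]
  [CommRing R'] [Algebra k R'] {φ : R →ₐ[k] R'}

theorem mapA_surjective (hφ : Function.Surjective φ) : Function.Surjective (C.mapA φ) := fun v => by
  induction v using TensorProduct.induction_on with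
  | zero => exact ⟨0, map_zero _⟩
  | tmul r a => obtain ⟨s, rfl⟩ := hφ r; exact ⟨s ⊗ₜ a, rfl⟩
  | add x y hx hy =>
    obtain ⟨a, rfl⟩ := hx
    obtain ⟨b, rfl⟩ := hy
    exact ⟨a + b, map_add _ _ _⟩

theorem exists_mapA_eq_of_mem_Cp (hφ : Function.Surjective φ) {v : C.A R'} (hv : v ∈ C.Cp R') :
    ∃ w ∈ C.Cp R, C.mapA φ w = v :=
  C.Cp_induction (P := fun v => ∃ w ∈ C.Cp R, C.mapA φ w = v) hv
    (fun r a ha => by
      obtain ⟨s, rfl⟩ := hφ r
      exact ⟨s ⊗ₜ a, C.tmul_mem_Cp R s ha, rfl⟩)
    fun v w => by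
      rintro ⟨a, ha, rfl⟩ ⟨b, hb, rfl⟩
      exact ⟨a + b, add_mem ha hb, map_add _ _ _⟩

theorem mapA_mul_eq_zero (hφ : Function.Surjective φ) (hsq : RingHom.ker φ ^ 2 = ⊥) {a b : C.A R}
    (ha : C.mapA φ a = 0) (hb : C.mapA φ b = 0) : a * b = 0 := by
  have h : RingHom.ker (C.mapA φ) = (RingHom.ker φ).map
      (Algebra.TensorProduct.includeLeft : R →ₐ[k] C.A R) :=
    Algebra.TensorProduct.rTensor_ker φ hφ
  have hab : a * b ∈ RingHom.ker (C.mapA φ) * RingHom.ker (C.mapA φ) :=
    Ideal.mul_mem_mul (RingHom.mem_ker.mpr ha) (RingHom.mem_ker.mpr hb)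
  rw [h, ← Ideal.map_mul, ← sq, hsq, Ideal.map_bot] at hab
  exact hab

/-- Rigid triples lift along square-zero thickenings. -/
theorem hasLifting (e : C.Pt) : C.HasLifting e := by
  classical
  intro R R' _ _ _ _ φ hφ hsq T hT
  let f : C.A R →+* C.A R' := (C.mapA φ).toRingHom
  have hf : Function.Surjective f := C.mapA_surjective hφ
  have hfsq : ∀ a b, f a = 0 → f b = 0 → a * b = 0 := fun a b => C.mapA_mul_eq_zero hφ hsq
  obtain ⟨N, g', S', hg', hsum', hS'⟩ := T.exists_frame
  let E' : Matrix (Fin N) (Fin N) (C.A R') := .of fun i j => S' (g' i) j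
  have hSE : ∀ v j, ∑ i, S' v i * S' (g' i) j = S' v j := fun v j => by
    conv_rhs => rw [← hsum' v]
    simp [Finset.sum_apply]
  have hE' : E' * E' = E' := by ext i j; exact hSE _ _
  obtain ⟨E, hEE, hEE'⟩ := exists_idempotent_lift hf hfsq hE'
  have hEf : ∀ i j, f (E i j) = S' (g' i) j := fun i j => congrFun (congrFun hEE' i) j
  let W : Submodule (C.A R) (Fin N → C.A R) := LinearMap.range E.vecMulLinear
  have hW : ∀ x : W, Matrix.vecMul (x : Fin N → C.A R) E = x := fun x => by
    obtain ⟨y, hy⟩ := x.2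
    rw [← hy, Matrix.vecMulLinear_apply, Matrix.vecMul_vecMul, hEE]
  have hrow : ∀ i, E i ∈ W := fun i => ⟨Pi.single i 1, Matrix.single_one_vecMul i E⟩
  let g₀ : Fin N → W := fun i => ⟨E i, hrow i⟩
  have hsum₀ : ∀ v : W, ∑ i, W.subtype v i • g₀ i = v := fun v => Subtype.ext <| funext fun j => by
    rw [Submodule.coe_sum, Finset.sum_apply]
    exact congrFun (hW v) j
  let π : W →+ T.M :=
    { toFun := fun v => ∑ i, f ((v : Fin N → C.A R) i) • g' i
      map_zero' := Finset.sum_eq_zero fun i _ => by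
        rw [ZeroMemClass.coe_zero, Pi.zero_apply, map_zero]
        exact zero_smul (C.A R') (g' i)
      map_add' := fun v w => by simp [add_smul, Finset.sum_add_distrib] }
  have hπdef : ∀ v : W, π v = ∑ i, f ((v : Fin N → C.A R) i) • g' i := fun _ => rfl
  have hπ : ∀ a v, π (a • v) = f a • π v := fun a v => by
    simp [hπdef, Finset.smul_sum, mul_smul]
  have hπg : ∀ i, π (g₀ i) = g' i := fun i => by
    simp only [hπdef, g₀, hEf]
    exact hsum' _
  have hπs : Function.Surjective π := fun v => by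
    choose a ha using fun i => hf (S' v i)
    refine ⟨∑ i, a i • g₀ i, ?_⟩
    simp only [map_sum, hπ, hπg, ha]
    exact hsum' v
  have hker : ∀ v, π v = 0 → v ∈ RingHom.ker f • (⊤ : Submodule (C.A R) W) := fun v hv => by
    rw [← hsum₀ v]
    refine Submodule.sum_mem _ fun i _ => Submodule.smul_mem_smul ?_ Submodule.mem_top
    rw [RingHom.mem_ker]
    show f ((v : Fin N → C.A R) i) = 0
    have h1 : f ((v : Fin N → C.A R) i) = S' (π v) i := by
      conv_lhs => rw [← hW v]
      simp [Matrix.vecMul, dotProduct, hπdef, Finset.sum_apply, hEf]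
    rw [h1, hv, map_zero, Pi.zero_apply]
  have := T.inv_p
  obtain ⟨p₀, hp₀, hp1, hp2, hp3⟩ := exists_lattice_lift hfsq (B := C.Cp R) (B' := C.Cp R')
    (fun b hb => C.mapA_mem_Cp φ hb) (fun b hb => C.exists_mapA_eq_of_mem_Cp hφ hb) hf
    (C.X₀_mem_Cp R) (C.exists_pow_mul_mem_Cp R) g₀ W.subtype hsum₀ π hπ hπs hker
    (p' := T.p) g' S' hg' hsum' hS'
  obtain ⟨L, h', U', hh', hUsum', hU'⟩ := T.swap.exists_frame
  have := T.inv_m
  obtain ⟨m₀, hm₀, hm1, hm2, hm3⟩ := exists_lattice_lift hfsq (B := C.Cm R) (B' := C.Cm R')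
    (fun b hb => C.mapA_mem_Cm φ hb) (fun b hb => C.swap.exists_mapA_eq_of_mem_Cp hφ hb) hf
    (C.Y₀_mem_Cm R) (C.exists_pow_mul_mem_Cm R) g₀ W.subtype hsum₀ π hπ hπs hker
    (p' := T.m) h' U' hh' hUsum' hU'
  let T₀ : Triple C R :=
    { M := W
      p := p₀
      m := m₀
      inv_p := hp₀
      inv_m := hm₀
      exists_pow_smul_mem_p := hp3
      exists_pow_smul_mem_m := hm3 }
  refine ⟨T₀, ?_, ⟨{
    toFun := π
    map_smul := hπ
    map_p := hp1
    map_m := hm1
    span_p := fun v hv => Submodule.subset_span (hp2 v hv)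
    span_m := fun v hv => Submodule.subset_span (hm2 v hv) }⟩⟩
  obtain ⟨r', hr', hr's⟩ := hT
  choose ρ hρ using fun i => hφ (r' (g' i))
  let r : W → R := fun v => ∑ i, C.evalR R e ((v : Fin N → C.A R) i) * ρ i
  have hradd : ∀ v w, r (v + w) = r v + r w := fun v w => by
    simp [r, add_mul, Finset.sum_add_distrib]
  have hrsmul : ∀ (a : C.A R) (v : W), r (a • v) = C.evalR R e a * r v := fun a v => by
    simp [r, Finset.mul_sum, mul_assoc]
  have hrφ : ∀ v, φ (r v) = r' (π v) := fun v => by
    simp only [r, hπdef, map_sum, map_mul, hρ, hr']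
    exact Finset.sum_congr rfl fun i _ => congrArg (· * r' (g' i)) (C.evalR_mapA φ e _).symm
  obtain ⟨v', hv'⟩ := hr's 1
  obtain ⟨v, rfl⟩ := hπs v'
  have hunit : IsUnit (r v) := by
    have h0 : r v - 1 ∈ RingHom.ker φ := by
      rw [RingHom.mem_ker, map_sub, hrφ, hv', map_one, sub_self]
    have h1 := Ideal.mul_mem_mul h0 h0
    rw [← sq, hsq, Ideal.mem_bot] at h1
    refine IsUnit.of_mul_eq_one (2 - r v) ?_
    linear_combination -h1
  obtain ⟨u, hu⟩ := hunit
  have hrR : ∀ (s : R) (w : W), r (s • w) = s * r w := fun s w => by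
    rw [← algebraMap_smul (C.A R) s w, hrsmul, AlgHom.commutes]
    rfl
  refine ⟨{ toFun := r, map_add' := hradd, map_smul' := hrR }, hrsmul,
    fun s => ⟨(s * ↑u⁻¹) • v, (hrR _ _).trans ?_⟩⟩
  show s * ↑u⁻¹ * r v = s
  rw [← hu, mul_assoc, Units.inv_mul, mul_one]

end Model

end Fermat.Agent.RelPic
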