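import Fermat.Agent.RelPic.Props.Separated
import Fermat.Agent.RelPic.Chart.Fibre
import Fermat.Agent.RelPic.Complex.Degree
import Mathlib.RingTheory.Valuation.ValuationRing
import Mathlib.FieldTheory.IsAlgClosed.AlgebraicClosure

/-!
# Triples over a valuation ring are determined by their generic fibre

An isomorphism of generic fibres scales to maps in both directions that are nonzero on the closed
fibre.  As the curve is geometrically integral their composites are nonzero there as well, and they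
are scalars, hence units.
-/

set_option autoImplicit false
set_option synthInstance.maxHeartbeats 400000
set_option maxHeartbeats 1600000

noncomputable section

universe u

open scoped TensorProduct

namespace Fermat.Agent.RelPic

namespace Model

variable {k : Type u} [Field k] (C : Model k)

attribute [local instance] commRingCp

/-- Over an algebraically closed field the overlap ring of a regular model is a domain. -/
theorem isDomain_A (hC : C.Regular) (K : Type u) [Field K] [Algebra k K] [IsAlgClosed K] :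
    IsDomain (C.A K) := by
  have := hC.dedekind_p K
  have : Nontrivial (C.A K) :=
    (Subtype.val_injective (p := fun a => a ∈ C.Cp K)).nontrivial
  have key : ∀ (n : ℕ) (a : C.A K), C.X₀ K ^ n * a = 0 → a = 0 := fun n a h => by
    have h' := congrArg (C.Y₀ K ^ n * ·) h
    simpa [← mul_assoc, C.Y₀_pow_mul_X₀_pow] using h'
  have : NoZeroDivisors (C.A K) := ⟨fun {a b} hab => by
    obtain ⟨n, hn⟩ := C.exists_pow_mul_mem_Cp K a
    obtain ⟨m, hm⟩ := C.exists_pow_mul_mem_Cp K b
    have h : (⟨_, hn⟩ : C.Cp K) * ⟨_, hm⟩ = 0 := Subtype.ext (by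
      show C.X₀ K ^ n * a * (C.X₀ K ^ m * b) = 0
      rw [mul_mul_mul_comm, hab, mul_zero])
    exact (mul_eq_zero.mp h).imp (fun h => key n a (congrArg Subtype.val h))
      fun h => key m b (congrArg Subtype.val h)⟩
  exact NoZeroDivisors.to_isDomain _

theorem mapA_injective {R R' : Type u} [CommRing R] [Algebra k R] [CommRing R'] [Algebra k R']
    {φ : R →ₐ[k] R'} (hφ : Function.Injective φ) : Function.Injective (C.mapA φ) := by
  have e : ∀ v, C.mapA φ v = φ.toLinearMap.rTensor C.A₀ v := fun v => by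
    induction v using TensorProduct.induction_on with
    | zero => simp
    | tmul r a => rfl
    | add x y hx hy => rw [map_add, map_add, hx, hy]
  intro v w h
  exact Module.Flat.rTensor_preserves_injective_linearMap φ.toLinearMap hφ (by rw [← e, ← e, h])

theorem mapA_smul {R R' : Type u} [CommRing R] [Algebra k R] [CommRing R'] [Algebra k R']
    (φ : R →ₐ[k] R') (r : R) (v : C.A R) :
    C.mapA φ (r • v) = algebraMap R' (C.A R') (φ r) * C.mapA φ v := by
  rw [← algebraMap_smul (C.A R) r v, smul_eq_mul, map_mul, C.mapA_algebraMap]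

theorem repr_mapA {R R' : Type u} [CommRing R] [Algebra k R] [CommRing R'] [Algebra k R']
    (φ : R →ₐ[k] R') {ι : Type*} (b : Module.Basis ι k C.A₀) (v : C.A R) (l : ι) :
    (Algebra.TensorProduct.basis R' b).repr (C.mapA φ v) l =
      φ ((Algebra.TensorProduct.basis R b).repr v l) := by
  induction v using TensorProduct.induction_on with
  | zero => simp
  | tmul r a =>
    rw [C.mapA_tmul, Algebra.TensorProduct.basis_repr_tmul, Algebra.TensorProduct.basis_repr_tmul]
    simp
  | add x y hx hy => simp [hx, hy]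

end Model

theorem exists_mem_forall_dvd {V : Type*} [CommRing V] [IsDomain V] [ValuationRing V]
    {s : Finset V} (hs : s.Nonempty) : ∃ c ∈ s, ∀ y ∈ s, c ∣ y := by
  classical
  induction hs using Finset.Nonempty.cons_induction with
  | singleton a => exact ⟨a, by simp, by simp⟩
  | cons a s has hs ih =>
    obtain ⟨c, hc, h⟩ := ih
    rcases ValuationRing.dvd_total a c with hac | hca
    · exact ⟨a, Finset.mem_cons_self a s, fun y hy => by
        rcases Finset.mem_cons.mp hy with rfl | hy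
        · rfl
        · exact hac.trans (h y hy)⟩
    · exact ⟨c, Finset.mem_cons_of_mem hc, fun y hy => by
        rcases Finset.mem_cons.mp hy with rfl | hy
        · exact hca
        · exact h y hy⟩

namespace Triple

variable {k : Type u} [Field k] {C : Model k} {V K : Type u} [CommRing V] [Algebra k V] [Field K]
  [Algebra k K] {φ : V →ₐ[k] K} {T T' : Triple C V} {S S' : Triple C K}

theorem BC.injective (F : BC φ T S) (hφ : Function.Injective φ) : Function.Injective F.toFun := by
  obtain ⟨N, g, σ, -, hsum, -⟩ := T.exists_frame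
  let g₂ : T.M →+ (Fin N → C.A K) :=
    { toFun := fun v i => C.mapA φ (σ v i)
      map_zero' := funext fun i => by simp
      map_add' := fun v w => funext fun i => by simp }
  obtain ⟨e, he⟩ := F.exists_lift g₂ fun a v => funext fun i => by
    show C.mapA φ (σ (a • v) i) = C.mapA φ a * C.mapA φ (σ v i)
    rw [_root_.map_smul, Pi.smul_apply, smul_eq_mul, map_mul]
  intro v w h
  have h' : g₂ v = g₂ w := by rw [← he, ← he, h]
  rw [← hsum v, ← hsum w]
  exact Finset.sum_congr rfl fun i _ => by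
    rw [C.mapA_injective hφ (congrFun h' i)]

theorem BC.smul_left_cancel (F : BC φ T S) (hφ : Function.Injective φ) {b : V} (hb : b ≠ 0)
    {v w : T.M} (h : b • v = b • w) : v = w := by
  refine F.injective hφ ?_
  have h' := congrArg F.toFun h
  rw [F.map_smul_base, F.map_smul_base] at h'
  exact smul_right_injective S.M ((map_ne_zero_iff φ hφ).mpr hb) h'

section Fraction

variable [IsDomain V] (hφ : Function.Injective φ) (hdiv : ∀ r : K, ∃ a b : V, b ≠ 0 ∧ φ a / φ b = r)

include hφ hdiv

theorem BC.exists_denom (F : BC φ T S) (P : Submodule V T.M) {x : S.M}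
    (hx : x ∈ Submodule.span K (F.toFun '' (P : Set T.M))) :
    ∃ b ≠ 0, ∃ y ∈ P, F.toFun y = φ b • x := by
  induction hx using Submodule.span_induction with
  | mem x hx => obtain ⟨y, hy, rfl⟩ := hx; exact ⟨1, one_ne_zero, y, hy, by simp⟩
  | zero => exact ⟨1, one_ne_zero, 0, zero_mem _, by simp⟩
  | add x x' _ _ h h' =>
    obtain ⟨b, hb, y, hy, e⟩ := h
    obtain ⟨b', hb', y', hy', e'⟩ := h'
    refine ⟨b * b', mul_ne_zero hb hb', b' • y + b • y',
      add_mem (P.smul_mem _ hy) (P.smul_mem _ hy'), ?_⟩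
    rw [map_add, F.map_smul_base, F.map_smul_base, e, e', smul_add, map_mul, smul_smul, smul_smul,
      mul_comm (φ b') (φ b)]
  | smul r x _ h =>
    obtain ⟨b, hb, y, hy, e⟩ := h
    obtain ⟨a, c, hc, rfl⟩ := hdiv r
    refine ⟨b * c, mul_ne_zero hb hc, a • y, P.smul_mem _ hy, ?_⟩
    have hc' : φ c ≠ 0 := (map_ne_zero_iff φ hφ).mpr hc
    rw [F.map_smul_base, e, smul_smul, smul_smul, map_mul]
    congr 1
    field_simp

theorem BC.mem_of_mem_span (F : BC φ T S) (P : Submodule V T.M)
    (hP : ∃ ρ : T.M →ₗ[V] T.M, (∀ v, ρ v ∈ P) ∧ ∀ v ∈ P, ρ v = v) {y : T.M}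
    (hy : F.toFun y ∈ Submodule.span K (F.toFun '' (P : Set T.M))) : y ∈ P := by
  obtain ⟨ρ, hρ, hρ'⟩ := hP
  obtain ⟨b, hb, w, hw, e⟩ := F.exists_denom hφ hdiv P hy
  rw [← F.map_smul_base] at e
  have h1 : ρ (b • y) = b • y := hρ' _ (F.injective hφ e ▸ hw)
  rw [_root_.map_smul] at h1
  exact F.smul_left_cancel hφ hb h1 ▸ hρ y

/-- An isomorphism of generic fibres scales to a map which is nonzero on the closed fibre. -/
theorem exists_hom_ne_zero [ValuationRing V] {L : Type u} [CommRing L] [Algebra k L] [Nontrivial L]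
    [Nontrivial (C.A L)] (ψ : V →ₐ[k] L) (F : BC φ T S) (F' : BC φ T' S') (θ : S.Equiv S') :
    ∃ u : T.M →ₗ[C.A V] T'.M, (∀ v ∈ T.p, u v ∈ T'.p) ∧ (∀ v ∈ T.m, u v ∈ T'.m) ∧
      (∃ s : K, ∀ v, F'.toFun (u v) = s • θ.toEquiv (F.toFun v)) ∧
      ∃ (f : Module.Dual (C.A V) T'.M) (x : T.M), C.mapA ψ (f (u x)) ≠ 0 := by
  classical
  obtain ⟨N, g, σ, -, hsum, -⟩ := T.exists_frame
  obtain ⟨N', g', σ', -, hsum', -⟩ := T'.exists_frame
  have hex : ∀ i, ∃ b ≠ 0, ∃ y ∈ (⊤ : Submodule V T'.M),
      F'.toFun y = φ b • θ.toEquiv (F.toFun (g i)) := fun i =>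
    F'.exists_denom hφ hdiv ⊤ (by
      rw [Submodule.top_coe, Set.image_univ, F'.span_base]; exact Submodule.mem_top)
  choose b hb y _ hy using hex
  let a := ∏ i, b i
  let y' : Fin N → T'.M := fun i => (∏ l ∈ Finset.univ.erase i, b l) • y i
  have hy' : ∀ i, F'.toFun (y' i) = φ a • θ.toEquiv (F.toFun (g i)) := fun i => by
    simp only [y']
    rw [F'.map_smul_base, hy, smul_smul, ← map_mul, Finset.prod_erase_mul _ _ (Finset.mem_univ i)]
  have hθ : ∀ v, θ.toEquiv (F.toFun v) = ∑ i, C.mapA φ (σ v i) • θ.toEquiv (F.toFun (g i)) :=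
    fun v => by
      conv_lhs => rw [← hsum v, map_sum, map_sum]
      exact Finset.sum_congr rfl fun i _ => by rw [F.map_smul, _root_.map_smul]
  let u₀ : T.M →ₗ[C.A V] T'.M := (Fintype.linearCombination (C.A V) y').comp σ
  have hu₀ : ∀ v, F'.toFun (u₀ v) = φ a • θ.toEquiv (F.toFun v) := fun v => by
    simp only [u₀, LinearMap.comp_apply, Fintype.linearCombination_apply, map_sum, F'.map_smul, hy']
    rw [hθ, Finset.smul_sum]
    exact Finset.sum_congr rfl fun i _ => smul_comm _ _ _
  let bk := Module.Free.chooseBasis k C.A₀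
  let bV := Algebra.TensorProduct.basis V bk
  let U : Fin N → Fin N' → C.A V := fun i j => σ' (u₀ (g i)) j
  let s : Finset V := (Finset.univ : Finset (Fin N × Fin N')).biUnion fun ij =>
    (bV.repr (U ij.1 ij.2)).support.image (bV.repr (U ij.1 ij.2))
  have hmem : ∀ i j l, bV.repr (U i j) l ≠ 0 → bV.repr (U i j) l ∈ s := fun i j l h =>
    Finset.mem_biUnion.mpr ⟨(i, j), Finset.mem_univ _,
      Finset.mem_image.mpr ⟨l, Finsupp.mem_support_iff.mpr h, rfl⟩⟩
  have hs : s.Nonempty := by
    by_contra hne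
    have hU : ∀ i j, U i j = 0 := fun i j => bV.repr.map_eq_zero_iff.mp <| Finsupp.ext fun l => by
      by_contra h
      exact hne ⟨_, hmem i j l h⟩
    have hu : ∀ v, u₀ v = 0 := fun v => by
      rw [← hsum v, map_sum]
      refine Finset.sum_eq_zero fun i _ => ?_
      have h0 : u₀ (g i) = 0 := (hsum' _).symm.trans <| Finset.sum_eq_zero fun j _ => by
        rw [show σ' (u₀ (g i)) j = 0 from hU i j]; exact zero_smul (C.A V) (g' j)
      rw [_root_.map_smul, h0, smul_zero]
    have hzero : ∀ v : T.M, v = 0 := fun v => by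
      have h := hu₀ v
      rw [hu, map_zero] at h
      have h1 := (smul_eq_zero.mp h.symm).resolve_left
        ((map_ne_zero_iff φ hφ).mpr (Finset.prod_ne_zero_iff.mpr fun i _ => hb i))
      rw [θ.toEquiv.map_eq_zero_iff] at h1
      exact F.injective hφ (h1.trans (map_zero _).symm)
    have := T.invertible
    obtain ⟨t, ht⟩ := (Module.Invertible.bijective (R := C.A V) (M := T.M)).2 1
    have h0 : ∀ t, contractLeft (C.A V) T.M t = 0 := fun t => by
      induction t using TensorProduct.induction_on with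
      | zero => exact map_zero _
      | tmul f v => rw [hzero v, TensorProduct.tmul_zero, map_zero]
      | add x y hx hy => rw [map_add, hx, hy, add_zero]
    have := congrArg (C.mapA ψ) (ht.symm.trans (h0 t))
    rw [map_one, map_zero] at this
    exact one_ne_zero this
  obtain ⟨c, hcs, hdvd⟩ := exists_mem_forall_dvd hs
  obtain ⟨⟨i₀, j₀⟩, -, hc₀⟩ := Finset.mem_biUnion.mp hcs
  obtain ⟨l₀, hl₀, hc₀⟩ := Finset.mem_image.mp hc₀
  have hc : c ≠ 0 := hc₀ ▸ Finsupp.mem_support_iff.mp hl₀
  have hq : ∀ i j l, ∃ z, bV.repr (U i j) l = c * z := fun i j l => by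
    by_cases h : bV.repr (U i j) l = 0
    · exact ⟨0, by rw [h, mul_zero]⟩
    · exact hdvd _ (hmem i j l h)
  choose q hq using hq
  let U' : Fin N → Fin N' → C.A V := fun i j =>
    ∑ l ∈ (bV.repr (U i j)).support, q i j l • bV l
  have hU' : ∀ i j, c • U' i j = U i j := fun i j => by
    simp only [U', Finset.smul_sum, smul_smul, ← hq]
    exact (Finsupp.linearCombination_apply _ _).symm.trans (bV.linearCombination_repr _)
  let w : Fin N → T'.M := fun i => ∑ j, U' i j • g' j
  have hw : ∀ i, c • w i = u₀ (g i) := fun i => by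
    simp only [w, Finset.smul_sum, ← smul_assoc, hU']
    exact hsum' _
  let u : T.M →ₗ[C.A V] T'.M := (Fintype.linearCombination (C.A V) w).comp σ
  have hu : ∀ v, c • u v = u₀ v := fun v => by
    conv_rhs => rw [← hsum v, map_sum]
    simp only [u, LinearMap.comp_apply, Fintype.linearCombination_apply, Finset.smul_sum,
      _root_.map_smul]
    exact Finset.sum_congr rfl fun i _ => by rw [smul_comm, hw]
  have hFu : ∀ v, F'.toFun (u v) = (φ a / φ c) • θ.toEquiv (F.toFun v) := fun v => by
    have h := congrArg F'.toFun (hu v)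
    rw [F'.map_smul_base, hu₀] at h
    rw [div_eq_inv_mul, mul_smul, ← h, smul_smul,
      inv_mul_cancel₀ ((map_ne_zero_iff φ hφ).mpr hc), one_smul]
  refine ⟨u, fun v hv => ?_, fun v hv => ?_, ⟨_, hFu⟩, (LinearMap.proj j₀).comp σ', g i₀, fun h => ?_⟩
  · refine F'.mem_of_mem_span hφ hdiv T'.pR T'.exists_retraction_p ?_
    refine F'.span_p (show F'.toFun (u v) ∈ S'.pR from ?_)
    rw [hFu]
    exact S'.pR.smul_mem _ ((θ.mem_p _).mp (F.map_p v hv))
  · refine F'.mem_of_mem_span hφ hdiv T'.mR T'.swap.exists_retraction_p ?_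
    refine F'.span_m (show F'.toFun (u v) ∈ S'.mR from ?_)
    rw [hFu]
    exact S'.mR.smul_mem _ ((θ.mem_m _).mp (F.map_m v hv))
  · have h1 : c • σ' (u (g i₀)) j₀ = U i₀ j₀ := by
      rw [← Pi.smul_apply, ← LinearMap.map_smul_of_tower σ', hu]
    have h2 : c * bV.repr (σ' (u (g i₀)) j₀) l₀ = c * 1 := by
      rw [mul_one, ← smul_eq_mul, ← Finsupp.smul_apply, ← _root_.map_smul, h1]
      exact hc₀
    have h3 := congrArg (fun z => (Algebra.TensorProduct.basis L bk).repr z l₀) h
    simp only [C.repr_mapA, map_zero, Finsupp.zero_apply] at h3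
    have h4 : ψ (bV.repr (σ' (u (g i₀)) j₀) l₀) = 0 := h3
    rw [mul_left_cancel₀ hc h2, map_one] at h4
    exact one_ne_zero h4

/-- A composite of two scalings which are nonzero on the closed fibre is a unit. -/
theorem exists_unit_comp [ValuationRing V] {L : Type u} [CommRing L] [Algebra k L]
    [NoZeroDivisors (C.A L)] (ψ : V →ₐ[k] L) (hψ : ∀ t, ¬IsUnit t → ψ t = 0) (F : BC φ T S)
    (F' : BC φ T' S') (θ : S.Equiv S') (u : T.M →ₗ[C.A V] T'.M) (w : T'.M →ₗ[C.A V] T.M)
    (hu : ∃ s : K, ∀ v, F'.toFun (u v) = s • θ.toEquiv (F.toFun v))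
    (hw : ∃ s : K, ∀ v, F.toFun (w v) = s • θ.symm.toEquiv (F'.toFun v))
    (hu0 : ∃ (f : Module.Dual (C.A V) T'.M) (x : T.M), C.mapA ψ (f (u x)) ≠ 0)
    (hw0 : ∃ (f : Module.Dual (C.A V) T.M) (z : T'.M), C.mapA ψ (f (w z)) ≠ 0) :
    ∃ t : V, IsUnit t ∧ ∀ v, w (u v) = t • v := by
  obtain ⟨s, hs⟩ := hu
  obtain ⟨s', hs'⟩ := hw
  obtain ⟨f', x, hx⟩ := hu0
  obtain ⟨f, z, hz⟩ := hw0
  have := T'.invertible
  have hne : C.mapA ψ (f (w (u x))) ≠ 0 := fun h => by
    have e := congrArg (fun y => C.mapA ψ (f (w y))) (dual_apply_smul_comm f' (u x) z)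
    simp only [_root_.map_smul, smul_eq_mul, map_mul, h, mul_zero] at e
    exact mul_ne_zero hx hz e
  have hkill : ∀ (t : V) (y : C.A V), ¬IsUnit t → C.mapA ψ (t • y) = 0 := fun t y ht => by
    rw [C.mapA_smul, hψ t ht, map_zero, zero_mul]
  obtain ⟨a, b, hb, hab⟩ := hdiv (s' * s)
  have hb' : φ b ≠ 0 := (map_ne_zero_iff φ hφ).mpr hb
  have hsym : ∀ y : S.M, θ.symm.toEquiv (s • θ.toEquiv y) = s • y := fun y => by
    rw [← algebraMap_smul (C.A K) s (θ.toEquiv y), _root_.map_smul, algebraMap_smul]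
    exact congrArg _ (θ.toEquiv.symm_apply_apply y)
  have hscal : ∀ v, b • w (u v) = a • v := fun v => by
    refine F.injective hφ ?_
    rw [F.map_smul_base, F.map_smul_base, hs', hs, hsym, smul_smul, smul_smul, mul_assoc, ← hab,
      mul_div_cancel₀ _ hb']
  rcases ValuationRing.dvd_total b a with ⟨t, rfl⟩ | ⟨t, rfl⟩
  · have hwu : ∀ v, w (u v) = t • v := fun v =>
      F.smul_left_cancel hφ hb (by rw [hscal, mul_smul])
    refine ⟨t, by_contra fun ht => hne ?_, hwu⟩
    rw [hwu, LinearMap.map_smul_of_tower]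
    exact hkill t _ ht
  · have hwu : ∀ v, t • w (u v) = v := fun v =>
      F.smul_left_cancel hφ (left_ne_zero_of_mul hb) (by rw [← mul_smul, hscal])
    by_cases ht : IsUnit t
    · obtain ⟨t, rfl⟩ := ht
      refine ⟨↑t⁻¹, Units.isUnit _, fun v => ?_⟩
      conv_rhs => rw [← hwu v, smul_smul, Units.inv_mul, one_smul]
    · refine absurd ?_ hx
      rw [← hwu x, LinearMap.map_smul_of_tower, LinearMap.map_smul_of_tower]
      exact hkill t _ ht

end Fraction

end Triple

namespace Model

variable {k : Type u} [Field k] (C : Model k)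

/-- Rigid triples over a valuation ring are determined by their generic fibre. -/
theorem hasValuativeUniqueness (hC : C.Regular) (e : C.Pt) : C.HasValuativeUniqueness e := by
  intro V K _ _ _ _ _ _ _ _ φ hφe T T' S S' _ _ _ _ ⟨F⟩ ⟨F'⟩ ⟨θ⟩
  have hφa : ∀ r, φ r = algebraMap V K r := fun r => congrArg (fun f : V →+* K => f r) hφe
  have hφ : Function.Injective φ := fun a b h => IsFractionRing.injective V K (by
    rw [← hφa, ← hφa, h])
  have hdiv : ∀ r : K, ∃ a b : V, b ≠ 0 ∧ φ a / φ b = r := fun r => by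
    obtain ⟨a, b, hb, h⟩ := IsFractionRing.div_surjective (A := V) r
    exact ⟨a, b, nonZeroDivisors.ne_zero hb, by rw [hφa, hφa, h]⟩
  let L := AlgebraicClosure (IsLocalRing.ResidueField V)
  let ψ : V →ₐ[k] L := (IsScalarTower.toAlgHom k (IsLocalRing.ResidueField V) L).comp
    (IsScalarTower.toAlgHom k V (IsLocalRing.ResidueField V))
  have hψ : ∀ t, ¬IsUnit t → ψ t = 0 := fun t ht => by
    show algebraMap _ L (IsLocalRing.residue V t) = 0
    rw [(IsLocalRing.residue_eq_zero_iff t).mpr ((IsLocalRing.mem_maximalIdeal t).mpr ht), map_zero]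
  have := C.isDomain_A hC L
  obtain ⟨u, hup, hum, hus, hu0⟩ := Triple.exists_hom_ne_zero hφ hdiv ψ F F' θ
  obtain ⟨w, hwp, hwm, hws, hw0⟩ := Triple.exists_hom_ne_zero hφ hdiv ψ F' F θ.symm
  obtain ⟨t, ht, hwu⟩ := Triple.exists_unit_comp hφ hdiv ψ hψ F F' θ u w hus hws hu0 hw0
  obtain ⟨t', ht', huw⟩ := Triple.exists_unit_comp hφ hdiv ψ hψ F' F θ.symm w u hws hus hw0 hu0
  obtain ⟨t, rfl⟩ := ht
  obtain ⟨t', rfl⟩ := ht'
  have hback : ∀ v, (↑t⁻¹ : V) • w (u v) = v := fun v => by
    rw [hwu, smul_smul, Units.inv_mul, one_smul]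
  have hbij : Function.Bijective u := by
    refine ⟨fun v v' h => by rw [← hback v, h, hback], fun y => ⟨(↑t'⁻¹ : V) • w y, ?_⟩⟩
    rw [LinearMap.map_smul_of_tower, huw, smul_smul, Units.inv_mul, one_smul]
  exact ⟨{
    toEquiv := LinearEquiv.ofBijective u hbij
    mem_p := fun v => ⟨hup v, fun h => hback v ▸ T.pR.smul_mem _ (hwp _ h)⟩
    mem_m := fun v => ⟨hum v, fun h => hback v ▸ T.mR.smul_mem _ (hwm _ h)⟩ }⟩

end Model

end Fermat.Agent.RelPic
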